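/-
MAZUR (Track M), package (E1) (helper7): **the Eisenstein projectors on `J₀(N)(ℚ̄)`** — the
instantiation of lead's abstract package `Lib/Mazur/E/Idem/Torsion.lean` (`mzet_`) at
`J = JZero N`, `T_q = heckeOperatorBar N q` (`q` prime, `q ∉ S₀`), `a_q = 1 + q`.

`S₀ : Finset ℕ` is a finite set of excluded primes, *good* (`MzehGood N P S₀`) if it contains `P`
and the prime divisors of `N`.  All consumers ((E2), (B), (H), (P)/(p) instantiations) should use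
the named objects of this file so that they talk about the same `e k`:

* `mzehE N P S₀ hS k : JZero N →+ JZero N` (`= e k`), `mzehM N P S₀ hS k : AddSubgroup (JZero N)`
  (`= M k = {x | P ^ k • x = 0 ∧ e k x = x}`), `mzehFil N P S₀ hS k j` (`= 𝔪^j M k`);
* (a) `mzehE_mem`, (b) `mzehE_idem`, (c) `mzehE_succ`/`mzehE_le`, (d) `mzehE_eigen`;
* `mzehE_smul : e k (σ • x) = σ • e k x` for ALL `x` (global Galois equivariance);
* `mzehE_induction` : a property of additive endomorphisms which holds for the `T_q` and is stable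
  under `0, 1, +, -, ∘` holds for `e k`;
* `mzehM_smul_mem`, `mzehFil_smul_mem` (Galois stability), `mzeh_fin`, `mzehM_finite`.
-/
import Fermat.Agent.Lib.Mazur.E.Idem.Torsion
import Fermat.Agent.Lib.Mazur.E.Gal.ES
import Fermat.Agent.Lib.Alpha.Fin.Finite

set_option autoImplicit false
set_option linter.unusedSectionVars false
set_option linter.style.haveILetI false

namespace Fermat.Agent.Mazur

open ModularCurve

local notation "Qb" => AlgebraicClosure ℚ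
local notation "GQ" => (AlgebraicClosure ℚ ≃ₐ[ℚ] AlgebraicClosure ℚ)

/-- the index type: the primes outside `S₀` -/
abbrev MzehIdx (S₀ : Finset ℕ) : Type := {q : Nat.Primes // (q : ℕ) ∉ S₀}

/-- `S₀` contains `P` and the prime divisors of `N` -/
def MzehGood (N P : ℕ) (S₀ : Finset ℕ) : Prop :=
  P.Prime ∧ P ∈ S₀ ∧ ∀ q : ℕ, q.Prime → q ∣ N → q ∈ S₀

variable (N : ℕ) [NeZero N] (P : ℕ) (S₀ : Finset ℕ)

/-- the Hecke operators `T_q`, `q ∉ S₀`, as additive endomorphisms -/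
noncomputable def mzehT (q : MzehIdx S₀) : AddMonoid.End (JZero N) := (heckeOperatorBar N q.1).toAddMonoidHom

theorem mzehT_apply (q : MzehIdx S₀) (x : JZero N) : mzehT N S₀ q x = heckeOperatorBar N q.1 x :=
  rfl

/-- the Eisenstein eigenvalues `1 + q` -/
def mzehA (q : MzehIdx S₀) : ℤ := 1 + ((q.1 : ℕ) : ℤ)

variable {N P S₀}

theorem MzehGood.not_dvd (hS : MzehGood N P S₀) (q : MzehIdx S₀) : ¬ ((q.1 : ℕ) ∣ N) :=
  fun h => q.2 (hS.2.2 _ q.1.2 h)

theorem MzehGood.not_dvd_pow (hS : MzehGood N P S₀) (q : MzehIdx S₀) (k : ℕ) :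
    ¬ ((q.1 : ℕ) ∣ P ^ k) := by
  intro h
  have h1 : (q.1 : ℕ) ∣ P := q.1.2.dvd_of_dvd_pow h
  have h2 : (q.1 : ℕ) = P := (Nat.prime_dvd_prime_iff_eq q.1.2 hS.1).mp h1
  exact q.2 (h2 ▸ hS.2.1)

/-- the Hecke operators commute on `P`-power torsion -/
theorem mzeh_hcomm (hS : MzehGood N P S₀) (i j : MzehIdx S₀) (k : ℕ) (x : JZero N)
    (hx : P ^ k • x = 0) : mzehT N S₀ i (mzehT N S₀ j x) = mzehT N S₀ j (mzehT N S₀ i x) :=
  mzeg_comm N i.1 (hS.not_dvd i) j.1 (hS.not_dvd_pow i k) hx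

variable (N P S₀)

/-- **the Eisenstein projector `e k`** -/
noncomputable def mzehE (hS : MzehGood N P S₀) (k : ℕ) : JZero N →+ JZero N :=
  mzetE (mzehT N S₀) (mzehA S₀) P (mzeh_hcomm hS) k

/-- **the Eisenstein part `M k` of `J₀(N)[P^k]`** -/
noncomputable def mzehM (hS : MzehGood N P S₀) (k : ℕ) : AddSubgroup (JZero N) :=
  mzetM (mzehT N S₀) (mzehA S₀) P (mzeh_hcomm hS) k

/-- the `𝔪`-adic filtration of `M k` -/
noncomputable def mzehFil (hS : MzehGood N P S₀) (k j : ℕ) : AddSubgroup (JZero N) :=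
  mzetFil (mzehT N S₀) (mzehA S₀) P (mzeh_hcomm hS) k j

variable {N P S₀} (hS : MzehGood N P S₀)

theorem mem_mzehM {k : ℕ} {x : JZero N} :
    x ∈ mzehM N P S₀ hS k ↔ P ^ k • x = 0 ∧ mzehE N P S₀ hS k x = x := Iff.rfl

include hS in
/-- `J₀(N)[P^k]` is finite -/
theorem mzeh_fin (k : ℕ) : Finite {x : JZero N // P ^ k • x = 0} := by
  have hm : P ^ k ≠ 0 := pow_ne_zero k hS.1.ne_zero
  haveI := Fermat.Agent.Alpha.alpf_finite N (P ^ k) hm
  refine Finite.of_injective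
    (fun x : {x : JZero N // P ^ k • x = 0} =>
      (⟨x.1, (Submodule.mem_torsionBy_iff _ _).mpr (by rw [natCast_zsmul]; exact x.2)⟩ :
        ↥(Submodule.torsionBy ℤ (JZero N) ((P ^ k : ℕ) : ℤ)))) ?_
  intro x y h
  exact Subtype.ext (congrArg Subtype.val h)

/-- (a) -/
theorem mzehE_mem (k : ℕ) : mzehE N P S₀ hS k ∈ Subring.closure (Set.range (mzehT N S₀)) :=
  mzetE_mem _ _ _ _ k

/-- induction principle for `e k` -/
theorem mzehE_induction (k : ℕ) (C : AddMonoid.End (JZero N) → Prop)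
    (hT : ∀ q : MzehIdx S₀, C (mzehT N S₀ q)) (h0 : C 0) (h1 : C 1)
    (hadd : ∀ f g, C f → C g → C (f + g)) (hneg : ∀ f, C f → C (-f))
    (hmul : ∀ f g, C f → C g → C (f * g)) : C (mzehE N P S₀ hS k) := by
  refine Subring.closure_induction (p := fun f _ => C f) ?_ h0 h1 ?_ ?_ ?_ (mzehE_mem hS k)
  · rintro f ⟨q, rfl⟩
    exact hT q
  · exact fun f g _ _ hf hg => hadd f g hf hg
  · exact fun f _ hf => hneg f hf
  · exact fun f g _ _ hf hg => hmul f g hf hg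

/-- **`e k` is Galois equivariant on all of `J₀(N)(ℚ̄)`** -/
theorem mzehE_smul (k : ℕ) (σ : GQ) (x : JZero N) :
    mzehE N P S₀ hS k (σ • x) = σ • mzehE N P S₀ hS k x := by
  refine mzehE_induction hS k (fun f => ∀ x : JZero N, f (σ • x) = σ • f x) ?_ ?_ ?_ ?_ ?_ ?_ x
  · intro q x
    exact mzeg_hecke_smul N q.1 σ x
  · intro x
    exact (smul_zero (A := JZero N) σ).symm
  · intro x
    rfl
  · intro f g hf hg x
    show f (σ • x) + g (σ • x) = σ • (f x + g x)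
    rw [hf, hg, smul_add]
  · intro f hf x
    show -f (σ • x) = σ • (-f x)
    rw [hf, smul_neg]
  · intro f g hf hg x
    show f (g (σ • x)) = σ • f (g x)
    rw [hg, hf]

/-- (b) -/
theorem mzehE_idem {k : ℕ} {x : JZero N} (hx : P ^ k • x = 0) :
    mzehE N P S₀ hS k (mzehE N P S₀ hS k x) = mzehE N P S₀ hS k x :=
  mzetE_idem _ _ _ _ (mzeh_fin hS k) hx

/-- (c) -/
theorem mzehE_succ {k : ℕ} {x : JZero N} (hx : P ^ k • x = 0) :
    mzehE N P S₀ hS (k + 1) x = mzehE N P S₀ hS k x :=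
  mzetE_succ _ _ _ _ (mzeh_fin hS (k + 1)) hx

theorem mzehE_le {k l : ℕ} (hkl : k ≤ l) {x : JZero N} (hx : P ^ k • x = 0) :
    mzehE N P S₀ hS l x = mzehE N P S₀ hS k x :=
  mzetE_le _ _ _ _ hkl (mzeh_fin hS l) hx

/-- (d) -/
theorem mzehE_eigen {k : ℕ} {x : JZero N} (hx : P ^ k • x = 0)
    (h : ∀ q : MzehIdx S₀, heckeOperatorBar N q.1 x = (1 + ((q.1 : ℕ) : ℤ)) • x) :
    mzehE N P S₀ hS k x = x :=
  mzetE_eigen _ _ _ _ (mzeh_fin hS k) hx h

theorem mzehE_torsion {k l : ℕ} {x : JZero N} (hx : P ^ l • x = 0) :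
    P ^ l • mzehE N P S₀ hS k x = 0 :=
  mzetE_torsion _ _ _ _ hx

theorem mzehE_mem_M {k : ℕ} {x : JZero N} (hx : P ^ k • x = 0) :
    mzehE N P S₀ hS k x ∈ mzehM N P S₀ hS k :=
  mzetE_mem_M _ _ _ _ (mzeh_fin hS k) hx

/-- the Galois action as an additive endomorphism commuting with the `T_q` -/
theorem mzeh_smul_comm (σ : GQ) (q : MzehIdx S₀) (x : JZero N) :
    (DistribSMul.toAddMonoidHom (JZero N) σ : AddMonoid.End (JZero N)) (mzehT N S₀ q x)
      = mzehT N S₀ q ((DistribSMul.toAddMonoidHom (JZero N) σ : AddMonoid.End (JZero N)) x) :=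
  (mzeg_hecke_smul N q.1 σ x).symm

/-- `M k` is Galois stable -/
theorem mzehM_smul_mem {k : ℕ} (σ : GQ) {x : JZero N} (hx : x ∈ mzehM N P S₀ hS k) :
    σ • x ∈ mzehM N P S₀ hS k :=
  mzetM_stable _ _ _ _ (DistribSMul.toAddMonoidHom (JZero N) σ) (mzeh_smul_comm σ) hx

/-- the filtration is Galois stable -/
theorem mzehFil_smul_mem {k j : ℕ} (σ : GQ) {x : JZero N} (hx : x ∈ mzehFil N P S₀ hS k j) :
    σ • x ∈ mzehFil N P S₀ hS k j :=
  mzetFil_stable _ _ _ _ (DistribSMul.toAddMonoidHom (JZero N) σ) (mzeh_smul_comm σ) hx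

theorem mzehM_finite (k : ℕ) : Finite ↥(mzehM N P S₀ hS k) :=
  mzetM_finite _ _ _ _ (mzeh_fin hS k)

theorem mzehM_tors {k : ℕ} {x : JZero N} (hx : x ∈ mzehM N P S₀ hS k) : P ^ k • x = 0 :=
  ((mem_mzehM hS).mp hx).1

theorem mzehFil_zero (k : ℕ) : mzehFil N P S₀ hS k 0 = mzehM N P S₀ hS k :=
  mzetFil_zero _ _ _ _ k

theorem mzehFil_le (k j : ℕ) : mzehFil N P S₀ hS k j ≤ mzehM N P S₀ hS k :=
  mzetFil_le _ _ _ _ k j

theorem mzehFil_eq_bot (k : ℕ) : ∃ n, mzehFil N P S₀ hS k n = ⊥ :=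
  mzetFil_eq_bot _ _ _ _ (mzeh_fin hS k)

theorem mzehFil_P_smul {k j : ℕ} {x : JZero N} (hx : x ∈ mzehFil N P S₀ hS k j) :
    P • x ∈ mzehFil N P S₀ hS k (j + 1) :=
  mzetFil_P_smul _ _ _ _ hx

theorem mzehFil_T_sub {k j : ℕ} {x : JZero N} (hx : x ∈ mzehFil N P S₀ hS k j)
    (q : MzehIdx S₀) :
    heckeOperatorBar N q.1 x - (1 + ((q.1 : ℕ) : ℤ)) • x ∈ mzehFil N P S₀ hS k (j + 1) :=
  mzetFil_T_sub _ _ _ _ hx q

/-- `P : M (k+1) → M k` is surjective (uses the divisibility (K) of `J₀(N)(ℚ̄)`) -/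
theorem mzehM_smul_surj {k : ℕ} (hdiv : ∀ y : JZero N, ∃ z, P • z = y) {y : JZero N}
    (hy : y ∈ mzehM N P S₀ hS k) : ∃ x ∈ mzehM N P S₀ hS (k + 1), P • x = y :=
  mzetM_smul_surj _ _ _ _ (mzeh_fin hS (k + 1)) hdiv hy

theorem mzehM_smul {k : ℕ} {x : JZero N} (hx : x ∈ mzehM N P S₀ hS (k + 1)) :
    P • x ∈ mzehM N P S₀ hS k :=
  mzetM_smul _ _ _ _ (mzeh_fin hS (k + 1)) hx

theorem mzehM_le_succ (k : ℕ) : mzehM N P S₀ hS k ≤ mzehM N P S₀ hS (k + 1) :=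
  mzetM_le_succ _ _ _ _ (mzeh_fin hS (k + 1))

end Fermat.Agent.Mazur
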